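import Fermat.Agent.H96.EisTwisted
import Fermat.Agent.H23.ES1A.KummerDefs

/-!
# P-DS / ES1A-EIS (row 568): the twisted function for a generic model

`twistedFunction X : Fermat.Agent.H23.ES1A.TwistedFunctionStatement X` for EVERY model `X`
(no hypothesis on `X`; in particular `-1 ∈ X.Γ` is NOT needed: the Eisenstein series with
character tends to `1` or `2` at `i∞`).

Port of `Fermat.Agent.H96.twistedFunction`; the function is `Fermat.Agent.H96.twistedFun X.Γ χ`.
-/

set_option autoImplicit false

noncomputable section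

open UpperHalfPlane ModularForm EisensteinSeries Filter Topology
open scoped MatrixGroups Manifold Matrix

namespace Fermat.Agent.H37.ES1A

open Fermat.Agent.H96 Fermat.Agent.H23.ES1A

variable {Γ : Subgroup SL(2, ℤ)} {χ : Γ →* ℂˣ}

/-- The constant term of the Eisenstein series of weight `4` with a unitary character which is
trivial on the elements with lower left entry `0` is `1` or `2`. -/
theorem eisChar_const_ne_zero
    (hT0 : ∀ γ : Γ, ((γ : SL(2, ℤ)) : Matrix (Fin 2) (Fin 2) ℤ) 1 0 = 0 → χ γ = 1) :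
    charWeight Γ χ ![0, 1] + charWeight Γ χ ![0, -1] * (-1 : ℂ) ^ (-(4 : ℤ)) ≠ 0 := by
  have hT : IsTrivialAtInfty Γ χ := fun γ hγ => hT0 γ (by
    have := congrFun hγ 0
    simpa [botRow] using this)
  have h1 : ((-1 : ℂ)) ^ (-(4 : ℤ)) = 1 := by
    rw [zpow_neg, inv_eq_one]
    norm_num
  rw [charWeight_zero_one hT, h1, mul_one]
  by_cases h : ∃ γ : Γ, botRow (γ : SL(2, ℤ)) = ![0, -1]
  · obtain ⟨γ, hγ⟩ := h
    have h2 := charWeight_botRow hT γ
    rw [hγ] at h2
    have h3 : χ γ = 1 := hT0 γ (by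
      have := congrFun hγ 0
      simpa [botRow] using this)
    rw [h2, h3, Units.val_one, map_one]
    norm_num
  · rw [charWeight_of_not_exists h, add_zero]
    exact one_ne_zero

/-- The twisted function does not vanish identically (no hypothesis on `-1`). -/
theorem twistedFun_ne_zero_gen (hU : IsUnitaryChar Γ χ)
    (hT0 : ∀ γ : Γ, ((γ : SL(2, ℤ)) : Matrix (Fin 2) (Fin 2) ℤ) 1 0 = 0 → χ γ = 1) :
    twistedFun Γ χ ≠ 0 := by
  have h1 : ∀ᶠ z in atImInfty, eisChar Γ χ 4 z ≠ 0 :=
    (tendsto_eisChar_atImInfty (Γ := Γ) (χ := χ) hU (k := 4) (by norm_num)).eventually_ne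
      (eisChar_const_ne_zero hT0)
  have h2 : ∀ᶠ z in atImInfty, (E₄ : ℍ → ℂ) z ≠ 0 :=
    tendsto_E4_one.eventually_ne one_ne_zero
  obtain ⟨z, hz1, hz2⟩ := (h1.and h2).exists
  intro h0
  have := congrFun h0 z
  simp only [twistedFun, Pi.zero_apply, div_eq_zero_iff, mul_eq_zero, pow_eq_zero_iff,
    ne_eq, OfNat.ofNat_ne_zero, not_false_eq_true] at this
  rcases this with (h | h) | h
  · exact hz1 h
  · exact hz2 h
  · exact ModularForm.discriminant_ne_zero z h

/-- **ES1A-EIS**: the twisted function statement for every model. -/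
theorem twistedFunction (X : Model) : TwistedFunctionStatement X := by
  intro χ hU hT
  have hT' : IsTrivialAtInfty X.Γ χ := fun γ hγ => hT γ (by
    have := congrFun hγ 0
    simpa [botRow] using this)
  have hU' : IsUnitaryChar X.Γ χ := hU
  exact ⟨twistedFun X.Γ χ, twistedFun_mdifferentiable hU', twistedFun_ne_zero_gen hU' hT,
    twistedFun_moderateGrowth hU', fun γ z => twistedFun_smul hT' hU' γ z⟩

end Fermat.Agent.H37.ES1A
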